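import Mathlib.RingTheory.AdicCompletion.Basic
import Mathlib.Data.Matrix.Basic
import Mathlib.Data.Countable.Basic
import Mathlib.Data.Fintype.Pigeonhole
import Mathlib.Order.Filter.AtTopBot.Basic
import Mathlib.Order.Filter.Finite

/-!
# Patching by compactness

In a ring which is complete and separated for an ideal `I` with finite quotients `S ⧸ I ^ k`, every
countable family of sequences has a common convergent subsequence, and a sequence of maps
`ψ n : P → Mat_d(S)` which are ring homomorphisms modulo ideals tending to zero has a limit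
homomorphism along such a subsequence.
-/

set_option autoImplicit false

open Filter

namespace FLTAgent.ModularityLifting.Patching

variable {S : Type*} [CommRing S] (I : Ideal S)

/-- `x` tends to `L` for the `I`-adic topology. -/
def Tends (x : ℕ → S) (L : S) : Prop := ∀ k : ℕ, ∀ᶠ n in atTop, x n - L ∈ I ^ k

/-- A sequence of ideals tends to zero. -/
def IdealTendsZero (a : ℕ → Ideal S) : Prop := ∀ k : ℕ, ∀ᶠ n in atTop, a n ≤ I ^ k

variable {I}

theorem Tends.add {x y : ℕ → S} {L M : S} (hx : Tends I x L) (hy : Tends I y M) :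
    Tends I (fun n => x n + y n) (L + M) := fun k =>
  ((hx k).and (hy k)).mono fun n h => by
    simpa [add_sub_add_comm] using add_mem h.1 h.2

theorem Tends.mul {x y : ℕ → S} {L M : S} (hx : Tends I x L) (hy : Tends I y M) :
    Tends I (fun n => x n * y n) (L * M) := fun k =>
  ((hx k).and (hy k)).mono fun n h => by
    have e : x n * y n - L * M = (x n - L) * y n + L * (y n - M) := by ring
    rw [e]
    exact add_mem (Ideal.mul_mem_right _ _ h.1) (Ideal.mul_mem_left _ _ h.2)

theorem Tends.neg {x : ℕ → S} {L : S} (hx : Tends I x L) : Tends I (fun n => -x n) (-L) :=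
  fun k => (hx k).mono fun n h => by
    rw [neg_sub_neg, ← neg_sub]; exact neg_mem h

theorem Tends.const (L : S) : Tends I (fun _ => L) L := fun k =>
  Eventually.of_forall fun _ => by simp

theorem Tends.sum {ι : Type*} (s : Finset ι) {x : ι → ℕ → S} {L : ι → S}
    (hx : ∀ i ∈ s, Tends I (x i) (L i)) :
    Tends I (fun n => ∑ i ∈ s, x i n) (∑ i ∈ s, L i) := fun k =>
  ((Filter.eventually_all_finset s).mpr fun i hi => hx i hi k).mono fun n h => by
    rw [← Finset.sum_sub_distrib]
    exact sum_mem h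

theorem Tends.congr {a : ℕ → Ideal S} (ha : IdealTendsZero I a) {x y : ℕ → S} {L : S}
    (hx : Tends I x L) (hxy : ∀ᶠ n in atTop, y n - x n ∈ a n) : Tends I y L := fun k =>
  (((hx k).and (ha k)).and hxy).mono fun n h => by
    simpa using add_mem (h.1.2 h.2) h.1.1

theorem Tends.comp {x : ℕ → S} {L : S} (hx : Tends I x L) {φ : ℕ → ℕ} (hφ : StrictMono φ) :
    Tends I (fun n => x (φ n)) L := fun k => hφ.tendsto_atTop.eventually (hx k)

theorem eq_of_forall_sub_mem [IsHausdorff I S] {L M : S} (h : ∀ k, L - M ∈ I ^ k) : L = M :=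
  sub_eq_zero.mp <| IsHausdorff.haus ‹_› _ fun k => by
    rw [SModEq.sub_mem, smul_eq_mul, Ideal.mul_top, sub_zero]; exact h k

theorem Tends.unique [IsHausdorff I S] {x : ℕ → S} {L M : S} (hL : Tends I x L)
    (hM : Tends I x M) : L = M :=
  eq_of_forall_sub_mem (I := I) fun k => by
    obtain ⟨n, h1, h2⟩ := ((hL k).and (hM k)).exists
    simpa using sub_mem h2 h1

theorem exists_tends_of_cauchy [IsPrecomplete I S] {x : ℕ → S}
    (h : ∀ k, ∀ᶠ m in atTop, ∀ n ≥ m, x n - x m ∈ I ^ k) : ∃ L, Tends I x L := by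
  choose N hN using fun k => eventually_atTop.mp (h k)
  let M : ℕ → ℕ := fun k => (Finset.range (k + 1)).sup N + k
  have hM : ∀ j k, j ≤ k → N j ≤ M k := fun j k hjk =>
    (Finset.le_sup (f := N) (by simpa using Nat.lt_succ_of_le hjk)).trans (Nat.le_add_right _ _)
  have hmono : Monotone M := fun j k hjk =>
    add_le_add (Finset.sup_mono (by
      intro i hi; simp only [Finset.mem_range] at hi ⊢; omega)) hjk
  obtain ⟨L, hL⟩ := IsPrecomplete.prec ‹IsPrecomplete I S› (f := fun k => x (M k))
    (fun {m n} hmn => by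
      rw [SModEq.sub_mem, smul_eq_mul, Ideal.mul_top, ← neg_sub]
      exact neg_mem (hN m (M m) (hM m m le_rfl) (M n) (hmono hmn)))
  refine ⟨L, fun k => eventually_atTop.mpr ⟨M k, fun n hn => ?_⟩⟩
  have h1 := hL k
  rw [SModEq.sub_mem, smul_eq_mul, Ideal.mul_top] at h1
  have h2 := hN k (M k) (hM k k le_rfl) n hn
  simpa using add_mem h2 h1

/-- A countable family of sequences has a common convergent subsequence. -/
theorem exists_subseq_tends [IsPrecomplete I S] (hfin : ∀ k, Finite (S ⧸ I ^ k)) {ι : Type*}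
    [Countable ι] (a : ℕ → ι → S) :
    ∃ (φ : ℕ → ℕ) (L : ι → S), StrictMono φ ∧ ∀ i, Tends I (fun n => a (φ n) i) (L i) := by
  classical
  obtain ⟨e, he⟩ := exists_injective_nat ι
  let key : (k : ℕ) → ℕ → ({i : ι // e i < k} → S ⧸ I ^ k) := fun k n i =>
    Ideal.Quotient.mk _ (a n i.1)
  have hfk : ∀ k, Finite ({i : ι // e i < k} → S ⧸ I ^ k) := fun k => by
    have := hfin k
    have : Finite {i : ι // e i < k} :=
      Finite.of_injective (fun i => (⟨e i.1, i.2⟩ : Fin k))
        fun i j hij => Subtype.ext (he (congrArg Fin.val hij))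
    infer_instance
  have step : ∀ (k : ℕ) (U : {U : Set ℕ // U.Infinite}),
      ∃ U' : {U : Set ℕ // U.Infinite}, U'.1 ⊆ U.1 ∧
        ∀ m ∈ U'.1, ∀ n ∈ U'.1, key k m = key k n := by
    intro k U
    have := hfk k
    have := U.2.to_subtype
    obtain ⟨c, hc⟩ := Finite.exists_infinite_fiber fun n : U.1 => key k n.1
    refine ⟨⟨_, (Set.infinite_coe_iff.mp hc).image Subtype.val_injective.injOn⟩,
      Set.image_subset_iff.mpr fun n _ => n.2, ?_⟩
    rintro _ ⟨m, hm, rfl⟩ _ ⟨n, hn, rfl⟩
    exact (show key k m.1 = c from hm).trans (show key k n.1 = c from hn).symm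
  choose next hsub hconst using step
  let U : ℕ → {U : Set ℕ // U.Infinite} := fun k =>
    Nat.rec (next 0 ⟨Set.univ, Set.infinite_univ⟩) (fun k U => next (k + 1) U) k
  have hU : ∀ k, ∀ m ∈ (U k).1, ∀ n ∈ (U k).1, key k m = key k n := by
    intro k
    cases k with
    | zero => exact hconst 0 _
    | succ k => exact hconst (k + 1) _
  have hanti : ∀ j k, j ≤ k → (U k).1 ⊆ (U j).1 := by
    intro j k hjk
    induction hjk with
    | refl => exact subset_rfl
    | step _ ih => exact (hsub _ _).trans ih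
  choose pick hpick hgt using fun (k b : ℕ) => (U k).2.exists_gt b
  let φ : ℕ → ℕ := fun k => Nat.rec (pick 0 0) (fun k prev => pick (k + 1) prev) k
  have hφ : StrictMono φ := strictMono_nat_of_lt_succ fun k => hgt (k + 1) (φ k)
  have hmem : ∀ k, φ k ∈ (U k).1 := by
    intro k
    cases k with
    | zero => exact hpick 0 0
    | succ k => exact hpick (k + 1) _
  have hex : ∀ i, ∃ L, Tends I (fun n => a (φ n) i) L := by
    intro i
    refine exists_tends_of_cauchy fun k => eventually_atTop.mpr ⟨max k (e i + 1),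
      fun m hm n hn => ?_⟩
    have hm' : k ≤ m ∧ e i + 1 ≤ m := max_le_iff.mp hm
    have := congrFun (hU m _ (hanti m n hn (hmem n)) _ (hmem m)) ⟨i, hm'.2⟩
    exact Ideal.pow_le_pow_right hm'.1 (Ideal.Quotient.eq.mp this)
  choose L hL using hex
  exact ⟨φ, L, hφ, hL⟩

/-- Entrywise convergence of matrices. -/
def MatTends {m n : Type*} (I : Ideal S) (x : ℕ → Matrix m n S) (L : Matrix m n S) : Prop :=
  ∀ i j, Tends I (fun k => x k i j) (L i j)

theorem MatTends.add {m n : Type*} {x y : ℕ → Matrix m n S} {L M : Matrix m n S}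
    (hx : MatTends I x L) (hy : MatTends I y M) : MatTends I (fun k => x k + y k) (L + M) :=
  fun i j => (hx i j).add (hy i j)

theorem MatTends.mul {m n o : Type*} [Fintype n] {x : ℕ → Matrix m n S} {y : ℕ → Matrix n o S}
    {L : Matrix m n S} {M : Matrix n o S} (hx : MatTends I x L) (hy : MatTends I y M) :
    MatTends I (fun k => x k * y k) (L * M) := fun i j => by
  simp only [Matrix.mul_apply]
  exact Tends.sum _ fun l _ => (hx i l).mul (hy l j)

theorem MatTends.const {m n : Type*} (L : Matrix m n S) : MatTends I (fun _ => L) L :=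
  fun _ _ => Tends.const _

theorem MatTends.comp {m n : Type*} {x : ℕ → Matrix m n S} {L : Matrix m n S}
    (hx : MatTends I x L) {φ : ℕ → ℕ} (hφ : StrictMono φ) : MatTends I (fun k => x (φ k)) L :=
  fun i j => (hx i j).comp hφ

theorem MatTends.unique [IsHausdorff I S] {m n : Type*} {x : ℕ → Matrix m n S}
    {L M : Matrix m n S} (hL : MatTends I x L) (hM : MatTends I x M) : L = M :=
  Matrix.ext fun i j => (hL i j).unique (hM i j)

theorem MatTends.congr {a : ℕ → Ideal S} (ha : IdealTendsZero I a) {m n : Type*}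
    {x y : ℕ → Matrix m n S} {L : Matrix m n S} (hx : MatTends I x L)
    (hxy : ∀ k i j, (y k - x k) i j ∈ a k) : MatTends I y L := fun i j =>
  (hx i j).congr ha (Eventually.of_forall fun k => by simpa using hxy k i j)

section LimitHom

variable {P : Type*} [CommRing P] (J : Ideal P) {ι : Type*} [Fintype ι] [DecidableEq ι]

/-- A countable set of representatives for all `P ⧸ J ^ k`. -/
noncomputable def reps (x : Σ k : ℕ, P ⧸ J ^ k) : P := Quotient.out x.2

variable {J}

variable {a : ℕ → Ideal S} {ψ : ℕ → P → Matrix ι ι S}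

omit [DecidableEq ι] in
/-- If sufficiently high powers of `J` land in matrices over `I`, then they land deep. -/
theorem eventually_mem_pow (ha : IdealTendsZero I a)
    (hadd : ∀ n x y i j, (ψ n (x + y) - (ψ n x + ψ n y)) i j ∈ a n)
    (hmul : ∀ n x y i j, (ψ n (x * y) - ψ n x * ψ n y) i j ∈ a n)
    (e : ℕ) (hnil : ∀ n, ∀ x ∈ J ^ e, ∀ i j, ψ n x i j ∈ I) (k : ℕ) :
    ∀ᶠ n in atTop, ∀ x ∈ J ^ (e * k), ∀ i j, ψ n x i j ∈ I ^ k := by
  induction k with
  | zero => exact Eventually.of_forall fun n x _ i j => by simp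
  | succ k ih =>
    refine (ih.and (ha (k + 1))).mono fun n hn x hx => ?_
    rw [Nat.mul_succ, pow_add] at hx
    refine Submodule.mul_induction_on hx (fun u hu v hv i j => ?_) (fun u v hu hv i j => ?_)
    · have h1 : (ψ n u * ψ n v) i j ∈ I ^ (k + 1) := by
        rw [Matrix.mul_apply, pow_succ]
        exact sum_mem fun l _ => Ideal.mul_mem_mul (hn.1 u hu i l) (hnil n v hv l j)
      simpa using add_mem (hn.2 (hmul n u v i j)) h1
    · simpa using add_mem (hn.2 (hadd n u v i j)) (add_mem (hu i j) (hv i j))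

/-- Limit of approximate homomorphisms along a sequence on which representatives converge. -/
theorem exists_limit_hom [IsAdicComplete I S] (ha : IdealTendsZero I a)
    (hadd : ∀ n x y i j, (ψ n (x + y) - (ψ n x + ψ n y)) i j ∈ a n)
    (hmul : ∀ n x y i j, (ψ n (x * y) - ψ n x * ψ n y) i j ∈ a n)
    (hone : ∀ n i j, (ψ n 1 - 1) i j ∈ a n)
    (e : ℕ) (hnil : ∀ n, ∀ x ∈ J ^ e, ∀ i j, ψ n x i j ∈ I)
    (hconv : ∀ x : Σ k : ℕ, P ⧸ J ^ k, ∃ L, MatTends I (fun n => ψ n (reps J x)) L) :
    ∃ Ψ : P →+* Matrix ι ι S, ∀ x, MatTends I (fun n => ψ n x) (Ψ x) := by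
  have hall : ∀ x : P, ∃ L, MatTends I (fun n => ψ n x) L := by
    intro x
    have key : ∀ i j, ∃ L, Tends I (fun n => ψ n x i j) L := by
      intro i j
      refine exists_tends_of_cauchy fun k => ?_
      obtain ⟨L, hL⟩ := hconv ⟨e * k, Ideal.Quotient.mk _ x⟩
      set y := reps J ⟨e * k, Ideal.Quotient.mk (J ^ (e * k)) x⟩
      have hy : x - y ∈ J ^ (e * k) := Ideal.Quotient.eq.mp (Quotient.out_eq _).symm
      obtain ⟨N, hN⟩ := eventually_atTop.mp
        ((eventually_mem_pow ha hadd hmul e hnil k).and ((ha k).and (hL i j k)))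
      have near : ∀ n ≥ N, ψ n x i j - L i j ∈ I ^ k := by
        intro n hn
        obtain ⟨h1, h2, h3⟩ := hN n hn
        have := add_mem (add_mem (h2 (hadd n y (x - y) i j)) (h1 _ hy i j)) h3
        convert this using 1
        rw [add_sub_cancel]
        simp only [Matrix.sub_apply, Matrix.add_apply]
        abel
      refine eventually_atTop.mpr ⟨N, fun m hm n hn => ?_⟩
      simpa using sub_mem (near n (hm.trans hn)) (near m hm)
    choose L hL using key
    exact ⟨Matrix.of L, hL⟩
  choose Ψ hΨ using hall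
  have h1 : Ψ 1 = 1 := (hΨ 1).unique ((MatTends.const 1).congr ha hone)
  have hm : ∀ x y, Ψ (x * y) = Ψ x * Ψ y := fun x y =>
    (hΨ _).unique (((hΨ x).mul (hΨ y)).congr ha fun n => hmul n x y)
  have hp : ∀ x y, Ψ (x + y) = Ψ x + Ψ y := fun x y =>
    (hΨ _).unique (((hΨ x).add (hΨ y)).congr ha fun n => hadd n x y)
  exact ⟨RingHom.mk' ⟨⟨Ψ, h1⟩, hm⟩ hp, hΨ⟩

end LimitHom

end FLTAgent.ModularityLifting.Patching
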