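import Fermat.Agent.ModularityLifting.Patching.Support
import Mathlib.LinearAlgebra.Matrix.Charpoly.LinearMap
import Mathlib.RingTheory.Noetherian.Basic

/-!
# Whole components in the support, and the level raising step

Modules here are finite and torsion free over a domain `S`, with an action of an `S`-algebra `A`.
-/

set_option autoImplicit false

namespace FLTAgent.ModularityLifting.Patching

variable {S A M : Type*} [CommRing S] [CommRing A] [Algebra S A]
  [AddCommGroup M] [Module S M] [Module A M] [IsScalarTower S A M]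

theorem finite_quotient_annihilator [IsNoetherianRing S] [Module.Finite S M] :
    Module.Finite S (A ⧸ Module.annihilator A M) := by
  obtain ⟨n, b, hb⟩ := Module.Finite.exists_fin (R := S) (M := M)
  let f : A →ₗ[S] (Fin n → M) :=
    { toFun := fun a i => a • b i
      map_add' := fun a a' => funext fun i => add_smul a a' (b i)
      map_smul' := fun s a => funext fun i => smul_assoc s a (b i) }
  have hker : ∀ a, a ∈ Module.annihilator A M ↔ f a = 0 := by
    refine fun a => ⟨fun h => funext fun i => Module.mem_annihilator.mp h (b i), fun h => ?_⟩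
    refine Module.mem_annihilator.mpr fun m => ?_
    have hm : m ∈ Submodule.span S (Set.range b) := hb ▸ Submodule.mem_top
    induction hm using Submodule.span_induction with
    | mem x hx => obtain ⟨i, rfl⟩ := hx; exact congrFun h i
    | zero => exact smul_zero a
    | add x y _ _ hx hy => rw [smul_add, hx, hy, add_zero]
    | smul s x _ hx => rw [smul_comm, hx, smul_zero]
  let g : (A ⧸ Module.annihilator A M) →ₗ[S] (Fin n → M) :=
    { toFun := Quotient.lift f fun a a' h => by
        have h' : a - a' ∈ Module.annihilator A M := (Submodule.quotientRel_def _).mp h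
        exact sub_eq_zero.mp ((map_sub f a a').symm.trans ((hker _).mp h'))
      map_add' := fun x y => by
        obtain ⟨a, rfl⟩ := Ideal.Quotient.mk_surjective x
        obtain ⟨a', rfl⟩ := Ideal.Quotient.mk_surjective y
        exact map_add f a a'
      map_smul' := fun c x => by
        obtain ⟨a, rfl⟩ := Ideal.Quotient.mk_surjective x
        exact map_smul f c a }
  refine Module.Finite.of_injective g fun x y hxy => ?_
  obtain ⟨a, rfl⟩ := Ideal.Quotient.mk_surjective x
  obtain ⟨a', rfl⟩ := Ideal.Quotient.mk_surjective y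
  exact Ideal.Quotient.eq.mpr ((hker _).mpr ((map_sub f a a').trans (sub_eq_zero.mpr hxy)))

variable [IsDomain S] [IsNoetherianRing S] [Module.Finite S M] [Module.IsTorsionFree S M]

/-- If, outside a prime `P` of the support, every element of a prime `C` of small coheight kills
the module, then `C` contains the kernel of the action of `R`. -/
theorem comap_annihilator_le {R : Type*} [CommRing R] (f : R →+* A)
    (hint : ∀ s : S, ((Ideal.Quotient.mk (Module.annihilator A M)).comp f).IsIntegralElem
      (algebraMap S (A ⧸ Module.annihilator A M) s))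
    (hS : ringKrullDim S ≠ ⊤) {C : Ideal R} [C.IsPrime]
    (hdim : ringKrullDim (R ⧸ C) ≤ ringKrullDim S) {P : Ideal A} [P.IsPrime]
    (hP : Module.annihilator A M ≤ P)
    (hC : ∀ g ∈ C, ∃ s ∉ P, ∀ m : M, (s * f g) • m = 0) :
    (Module.annihilator A M).comap f ≤ C ∧ C ≤ P.comap f := by
  set I := Module.annihilator A M with hI
  obtain ⟨Q, hQ, hQP⟩ := Ideal.exists_minimalPrimes_le hP
  have : Q.IsPrime := hQ.1.1
  have hCQ : C ≤ Q.comap f := by
    intro g hg
    obtain ⟨s, hs, hk⟩ := hC g hg
    have : s * f g ∈ Q := hQ.1.2 (Module.mem_annihilator.mpr hk)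
    exact (hQ.1.1.mem_or_mem this).resolve_left fun h => hs (hQP h)
  have : Module.Finite S (A ⧸ I) := finite_quotient_annihilator (S := S) (A := A) (M := M)
  let q := Ideal.Quotient.mk I
  have hQ' : (Q.map q).IsPrime := Ideal.map_isPrime_of_surjective Ideal.Quotient.mk_surjective
    (by rw [Ideal.mk_ker]; exact hQ.1.2)
  have hcomap : (Q.map q).comap q = Q := by
    rw [Ideal.comap_map_of_surjective _ Ideal.Quotient.mk_surjective, ← RingHom.ker_eq_comap_bot,
      Ideal.mk_ker, sup_eq_left]
    exact hQ.1.2
  have hQS : (Q.map q).comap (algebraMap S (A ⧸ I)) = ⊥ := by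
    rw [show algebraMap S (A ⧸ I) = q.comp (algebraMap S A) from rfl, ← Ideal.comap_comap, hcomap]
    exact comap_eq_bot_of_mem_minimalPrimes hQ
  have hg : (q.comp f).IsIntegral := by
    intro b
    let : Algebra R (A ⧸ I) := (q.comp f).toAlgebra
    let T := integralClosure R (A ⧸ I)
    have : Algebra.IsIntegral S (A ⧸ I) := Algebra.IsIntegral.of_finite S (A ⧸ I)
    have : Algebra.IsIntegral R T := inferInstance
    let ψ : S →+* T := (algebraMap S (A ⧸ I)).codRestrict T.toSubring fun s => hint s
    have hb : IsIntegral T b := by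
      obtain ⟨p, hp, hpb⟩ := Algebra.IsIntegral.isIntegral (R := S) b
      refine ⟨p.map ψ, hp.map ψ, ?_⟩
      rw [Polynomial.eval₂_map]
      exact hpb
    exact isIntegral_trans b hb
  have heq : C = (Q.map q).comap (q.comp f) :=
    comap_eq_of_le (q.comp f) hg hQS hS (by rw [← Ideal.comap_comap, hcomap]; exact hCQ) hdim
  rw [← Ideal.comap_comap, hcomap] at heq
  exact ⟨heq ▸ Ideal.comap_mono hQ.1.2, heq ▸ Ideal.comap_mono hQP⟩

section Step

variable {A M N : Type*} [CommRing A] [AddCommGroup M] [Module A M] [AddCommGroup N] [Module A N]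

/-- The level raising step: if `α` has cokernel killed, after `E`, by an element outside a prime
`P` containing the annihilator of `N`, and `β α` vanishes modulo `P` after a retraction of a
section, then `N` is zero at `P`, which is absurd. Hence every element killing the cokernel
lies in `P`. -/
theorem mem_of_forall_smul_mem_range {N₀ : Type*} [AddCommGroup N₀] [Module A N₀]
    [Module.Finite A N₀] (α : N →ₗ[A] M) (β : M →ₗ[A] N) (hβ : Function.Surjective β)
    (E : M →ₗ[A] M) (E' : N →ₗ[A] N) (hE : β ∘ₗ E = E' ∘ₗ β)
    (j : N₀ →ₗ[A] N) (π : N →ₗ[A] N₀) {P : Ideal A} [P.IsPrime]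
    (hP : Module.annihilator A N₀ ≤ P)
    (hπ : ∀ y, π (β (α y)) ∈ P • (⊤ : Submodule A N₀)) {u : A} (hu : u ∉ P)
    (hj : ∀ z, π (E' (j z)) - u • z ∈ P • (⊤ : Submodule A N₀))
    {t : A} (ht : ∀ x : M, t • E x ∈ LinearMap.range α) : t ∈ P := by
  by_contra htP
  have hsmul : ∀ z : N₀, (t * u) • z ∈ P • (⊤ : Submodule A N₀) := by
    intro z
    obtain ⟨x, hx⟩ := hβ (j z)
    obtain ⟨y, hy⟩ := ht x
    have h1 : t • π (E' (j z)) ∈ P • (⊤ : Submodule A N₀) := by
      have : β (α y) = t • E' (j z) := by
        rw [hy, map_smul, ← LinearMap.comp_apply, hE, LinearMap.comp_apply, hx]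
      rw [← map_smul, ← this]
      exact hπ y
    have h2 := Submodule.smul_mem _ t (hj z)
    rw [smul_sub, smul_smul] at h2
    simpa using sub_mem h1 h2
  have htu : t * u ∉ P := fun h => (Ideal.IsPrime.mem_or_mem ‹_› h).elim htP hu
  let f : Module.End A N₀ := LinearMap.lsmul A N₀ (t * u)
  obtain ⟨p, hp, -, hcoeff, hpf⟩ :=
    LinearMap.exists_monic_and_natDegree_eq_and_coeff_mem_pow_and_aeval_eq_zero A f P
      (by rintro _ ⟨z, rfl⟩; exact hsmul z)
  have hann : p.eval (t * u) ∈ Module.annihilator A N₀ := by
    refine Module.mem_annihilator.mpr fun z => ?_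
    have := LinearMap.congr_fun hpf z
    rw [show f = algebraMap A (Module.End A N₀) (t * u) from LinearMap.ext fun _ => rfl,
      Polynomial.aeval_algebraMap_apply_eq_algebraMap_eval] at this
    simpa using this
  have hmem := hP hann
  rw [Polynomial.eval_eq_sum_range, Finset.sum_range_succ, hp.coeff_natDegree, one_mul] at hmem
  refine htu (Ideal.IsPrime.mem_of_pow_mem ‹_› p.natDegree ?_)
  refine (Ideal.add_mem_iff_right _ (sum_mem fun k hk => Ideal.mul_mem_right _ _ ?_)).mp hmem
  exact Ideal.pow_le_self (by rw [Finset.mem_range] at hk; omega) (hcoeff k)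

end Step

end FLTAgent.ModularityLifting.Patching
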