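import Mathlib.RingTheory.Ideal.GoingUp
import Mathlib.RingTheory.Ideal.HasGoingUp
import Mathlib.RingTheory.Ideal.MinimalPrime.Localization
import Mathlib.RingTheory.KrullDimension.NonZeroDivisors
import Mathlib.RingTheory.Finiteness.Basic
import Mathlib.RingTheory.IntegralClosure.IsIntegralClosure.Basic

/-!
# Supports of patched modules are unions of whole components

If a commutative algebra `B`, finite over a domain `S`, acts on a torsion free `S`-module `M`, a
minimal prime over the annihilator meets `S` in `0`, so has coheight `dim S`; hence its preimage in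
a ring `R` over which `B` is integral equals any prime below it of coheight at most `dim S`.
-/

set_option autoImplicit false

namespace FLTAgent.ModularityLifting.Patching

section Dim

variable {R B : Type*} [CommRing R] [CommRing B] [Algebra R B] [Algebra.IsIntegral R B]

theorem ringKrullDim_le_of_isIntegral : ringKrullDim B ≤ ringKrullDim R :=
  Order.krullDim_le_of_strictMono (PrimeSpectrum.comap (algebraMap R B))
    fun I J h => by
      have := I.2
      exact Ideal.IsIntegral.comap_lt_comap (R := R) h

theorem le_ringKrullDim_of_isIntegral (hinj : Function.Injective (algebraMap R B)) :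
    ringKrullDim R ≤ ringKrullDim B := by
  refine iSup_le fun l => ?_
  obtain ⟨P, -, hP, hPl⟩ := Ideal.exists_ideal_over_prime_of_isIntegral (S := B)
    l.head.asIdeal ⊥ (by
      rw [← RingHom.ker_eq_comap_bot, (RingHom.injective_iff_ker_eq_bot _).mp hinj]
      exact bot_le)
  have : P.LiesOver l.head.asIdeal := ⟨hPl.symm⟩
  obtain ⟨L, hL, -, -⟩ := Ideal.exists_ltSeries_of_hasGoingUp l P
  exact le_iSup_of_le L (le_of_eq (by rw [hL]))

theorem ringKrullDim_eq_of_isIntegral (hinj : Function.Injective (algebraMap R B)) :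
    ringKrullDim B = ringKrullDim R :=
  le_antisymm ringKrullDim_le_of_isIntegral (le_ringKrullDim_of_isIntegral hinj)

end Dim

/-- The dimensions of a source and target linked by an integral map out of a prime quotient. -/
theorem ringKrullDim_quotient_comap_eq {R B : Type*} [CommRing R] [CommRing B] (f : R →+* B)
    (hf : f.IsIntegral) (Q : Ideal B) :
    ringKrullDim (R ⧸ Q.comap f) = ringKrullDim (B ⧸ Q) := by
  let : Algebra R B := f.toAlgebra
  have : Algebra.IsIntegral R B := ⟨hf⟩
  exact (ringKrullDim_eq_of_isIntegral (R := R ⧸ Q.comap (algebraMap R B)) (B := B ⧸ Q)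
    Ideal.algebraMap_quotient_injective).symm

variable {S B : Type*} [CommRing S] [IsDomain S] [CommRing B] [Algebra S B]

/-- A minimal prime over the annihilator of a torsion free module contracts to zero. -/
theorem comap_eq_bot_of_mem_minimalPrimes {M : Type*} [AddCommGroup M] [Module S M] [Module B M]
    [IsScalarTower S B M] [Module.IsTorsionFree S M] {Q : Ideal B}
    (hQ : Q ∈ (Module.annihilator B M).minimalPrimes) :
    Q.comap (algebraMap S B) = ⊥ := by
  rw [eq_bot_iff]
  intro s hs
  by_contra hs0
  set A := Module.annihilator B M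
  have hQ' : Q.map (Ideal.Quotient.mk A) ∈ minimalPrimes (B ⧸ A) := by
    rw [Ideal.minimalPrimes_eq_comap] at hQ
    obtain ⟨q, hq, rfl⟩ := hQ
    rwa [Ideal.map_comap_of_surjective _ Ideal.Quotient.mk_surjective]
  have hmem : Ideal.Quotient.mk A (algebraMap S B s) ∈ Q.map (Ideal.Quotient.mk A) :=
    Ideal.mem_map_of_mem _ (Ideal.mem_comap.mp hs)
  refine Set.disjoint_left.mp (Ideal.disjoint_nonZeroDivisors_of_mem_minimalPrimes hQ') hmem
    (mem_nonZeroDivisors_iff_right.mpr fun z hz => ?_)
  obtain ⟨b, rfl⟩ := Ideal.Quotient.mk_surjective z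
  rw [← map_mul, Ideal.Quotient.eq_zero_iff_mem] at hz
  rw [Ideal.Quotient.eq_zero_iff_mem]
  refine Module.mem_annihilator.mpr fun m => ?_
  have h1 : s • b • m = 0 := by
    rw [← algebraMap_smul B s (b • m), smul_smul, mul_comm]
    exact Module.mem_annihilator.mp hz m
  exact (smul_eq_zero.mp h1).resolve_left (by simpa using hs0)

/-- A prime of small coheight below the contraction of a prime of `B` meeting `S` in zero is
equal to that contraction. -/
theorem comap_eq_of_le [Module.Finite S B] {R : Type*} [CommRing R] (f : R →+* B)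
    (hf : f.IsIntegral) {Q : Ideal B} [Q.IsPrime] (hQS : Q.comap (algebraMap S B) = ⊥)
    (hS : ringKrullDim S ≠ ⊤) {C : Ideal R} [C.IsPrime] (hC : C ≤ Q.comap f)
    (hdim : ringKrullDim (R ⧸ C) ≤ ringKrullDim S) : C = Q.comap f := by
  have : Algebra.IsIntegral S B := Algebra.IsIntegral.of_finite S B
  have hinj : Function.Injective (algebraMap S (B ⧸ Q)) := by
    rw [RingHom.injective_iff_ker_eq_bot, IsScalarTower.algebraMap_eq S B (B ⧸ Q),
      ← RingHom.comap_ker]
    simpa using hQS
  have : Algebra.IsIntegral S (B ⧸ Q) := Algebra.IsIntegral.of_finite S (B ⧸ Q)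
  have hge : ringKrullDim S ≤ ringKrullDim (R ⧸ Q.comap f) := by
    rw [ringKrullDim_quotient_comap_eq f hf]
    exact le_ringKrullDim_of_isIntegral hinj
  refine le_antisymm hC fun x hx => ?_
  by_contra hxC
  have : IsDomain (R ⧸ C) := Ideal.Quotient.isDomain C
  have h1 : ringKrullDim (R ⧸ Q.comap f) + 1 ≤ ringKrullDim (R ⧸ C) :=
    ringKrullDim_succ_le_of_surjective (Ideal.Quotient.factor hC)
      (Ideal.Quotient.factor_surjective hC) (r := Ideal.Quotient.mk C x)
      (mem_nonZeroDivisors_of_ne_zero (by rwa [ne_eq, Ideal.Quotient.eq_zero_iff_mem]))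
      (by simpa [Ideal.Quotient.eq_zero_iff_mem] using hx)
  have h2 := (add_le_add_left hge 1).trans (h1.trans hdim)
  have hbot : ringKrullDim S ≠ ⊥ := ne_of_gt (WithBot.bot_lt_coe (0 : ℕ∞) |>.trans_le
    ringKrullDim_nonneg_of_nontrivial)
  obtain ⟨e, he⟩ := WithBot.ne_bot_iff_exists.mp hbot
  rw [← he] at h2 hS
  have hetop : e ≠ ⊤ := fun h => hS (by rw [h]; rfl)
  obtain ⟨k, rfl⟩ := ENat.ne_top_iff_exists.mp hetop
  norm_cast at h2
  omega

end FLTAgent.ModularityLifting.Patching
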